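import Fermat.Agent.Dihedral.Eigen

/-!
The doubling forms at `2`: two integral cusp forms of weight `2` and level `|d_K|` whose residues
modulo `2` are the dihedral eigensystem away from `2` and are exchanged by `T₂`.
-/

set_option autoImplicit false

noncomputable section

namespace Fermat.Agent.TwoAdic.Doubling

open NumberField CongruenceSubgroup Fermat.Agent.Dihedral Fermat.Agent.HeckeEigen
open scoped nonZeroDivisors

variable {K : Type} [Field K] [NumberField K] [IsImagQuadratic K]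
variable (χ : ClassGroup (𝓞 K) →* Multiplicative (ZMod 3))

/-- `θ_χ θ₁`, congruent to `θ_χ` modulo `2`. -/
def formF (hχ : χ ≠ 1) : CuspForm (Gamma0 (discr K).natAbs) 2 :=
  thetaCusp _ (classWeight χ) (classForm (K := K)) (fun _ : Unit => 1) (unitForm (K := K))
    (natAbs_discr_ne_zero K) classForm_D unitForm_D (cuspidalWeights χ hχ)

/-- `θ_χ²`, congruent to `θ_χ(q²)` modulo `2`. -/
def formG (hχ : χ ≠ 1) : CuspForm (Gamma0 (discr K).natAbs) 2 :=
  thetaCusp _ (classWeight χ) (classForm (K := K)) (classWeight χ) (classForm (K := K))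
    (natAbs_discr_ne_zero K) classForm_D classForm_D (cuspidalWeights χ hχ)

/-- The integral coefficients of `formF`. -/
def coeffF (n : ℕ) : ℤ :=
  ∑ ij ∈ Finset.HasAntidiagonal.antidiagonal n,
    bInt χ ij.1 * ((normForm (1 : (Ideal (𝓞 K))⁰)).rep ij.2 : ℤ)

/-- The integral coefficients of `formG`. -/
def coeffG (n : ℕ) : ℤ :=
  ∑ ij ∈ Finset.HasAntidiagonal.antidiagonal n, bInt χ ij.1 * bInt χ ij.2

theorem qCoeff_formF (hχ : χ ≠ 1) (n : ℕ) :
    ModularFormClass.qCoeff (formF χ hχ) n = (coeffF χ n : ℂ) := by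
  rw [formF, qCoeff_thetaCusp, coeffF]
  simp only [thetaCoeff, sum_classWeight_rep χ hχ, bsum_eq_bInt, unitForm, Fintype.sum_unique,
    one_mul]
  push_cast
  rfl

theorem qCoeff_formG (hχ : χ ≠ 1) (n : ℕ) :
    ModularFormClass.qCoeff (formG χ hχ) n = (coeffG χ n : ℂ) := by
  rw [formG, qCoeff_thetaCusp, coeffG]
  simp only [thetaCoeff, sum_classWeight_rep χ hχ, bsum_eq_bInt]
  push_cast
  rfl

theorem coeffF_zmod_two (n : ℕ) : (coeffF χ n : ZMod 2) = bInt χ n := by
  rw [coeffF, Int.cast_sum, Finset.sum_eq_single (n, 0)]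
  · simp [BinForm.rep_zero]
  · rintro ⟨i, j⟩ hij hne
    have hj : j ≠ 0 := by
      rintro rfl
      rw [Finset.HasAntidiagonal.mem_antidiagonal, add_zero] at hij
      exact hne (Prod.ext hij rfl)
    simp [BinForm.even_rep _ hj]
  · simp

theorem coeffG_zmod_two (n : ℕ) : (coeffG χ n : ZMod 2) = betaDiv χ 2 n := by
  rw [coeffG, Int.cast_sum]
  simp only [Int.cast_mul]
  exact sum_antidiagonal_self_zmod_two (fun k => (bInt χ k : ZMod 2)) n

/-- The recursion away from `2`, for both forms. -/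
theorem coeffF_mul {ℓ : ℕ} (hℓ : ℓ.Prime) (h2 : ℓ ≠ 2) (n : ℕ) :
    (coeffF χ (ℓ * n) : ZMod 2) = (traceTwo K χ ℓ : ZMod 2) * coeffF χ n +
      (if (ℓ : ℤ) ∣ discr K then 0 else if ℓ ∣ n then (coeffF χ (n / ℓ) : ZMod 2) else 0) := by
  simp only [coeffF_zmod_two]
  exact beta_mul χ hℓ h2 n

theorem coeffG_mul {ℓ : ℕ} (hℓ : ℓ.Prime) (h2 : ℓ ≠ 2) (n : ℕ) :
    (coeffG χ (ℓ * n) : ZMod 2) = (traceTwo K χ ℓ : ZMod 2) * coeffG χ n +
      (if (ℓ : ℤ) ∣ discr K then 0 else if ℓ ∣ n then (coeffG χ (n / ℓ) : ZMod 2) else 0) := by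
  simp only [coeffG_zmod_two]
  exact betaDiv_two_mul χ hℓ h2 n

/-- `T₂` exchanges the two forms. -/
theorem coeffF_two_mul (hinert : (Ideal.span {(2 : 𝓞 K)}).IsPrime) (n : ℕ) :
    (coeffF χ (2 * n) : ZMod 2) = coeffG χ n := by
  rw [coeffF_zmod_two, coeffG_zmod_two, (beta_two_mul χ hinert).2]

theorem coeffG_two_mul (n : ℕ) : (coeffG χ (2 * n) : ZMod 2) = coeffF χ n := by
  rw [coeffF_zmod_two, coeffG_zmod_two]
  simp [betaDiv]

theorem coeffF_one : (coeffF χ 1 : ZMod 2) = 1 := by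
  rw [coeffF_zmod_two, bInt_one, Int.cast_one]

theorem coeffG_one : (coeffG χ 1 : ZMod 2) = 0 := by
  rw [coeffG_zmod_two]; simp [betaDiv]

theorem coeffF_two (hinert : (Ideal.span {(2 : 𝓞 K)}).IsPrime) : (coeffF χ 2 : ZMod 2) = 0 := by
  have h := coeffF_two_mul χ hinert 1
  rwa [mul_one, coeffG_one] at h

theorem coeffG_two : (coeffG χ 2 : ZMod 2) = 1 := by
  have h := coeffG_two_mul χ 1
  rwa [mul_one, coeffF_one] at h

end Fermat.Agent.TwoAdic.Doubling
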