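import Mathlib.Algebra.DualNumber
import Fermat.Agent.TwoAdic.Doubling.Forms

/-!
The Hecke algebra of level `|d_K|` maps onto `𝔽₂[ε]` through the doubling forms: `T_ℓ ↦ t_ℓ` away
from `2` and `T₂ ↦ 1 + ε`.
-/

set_option autoImplicit false

noncomputable section

namespace Fermat.Agent.TwoAdic.Doubling

open NumberField CongruenceSubgroup Fermat.Agent.Dihedral Fermat.Agent.HeckeEigen
open scoped nonZeroDivisors DualNumber

variable {N : ℕ} [NeZero N] (F G : CuspForm (Gamma0 N) 2)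

/-- `t` acts on `F, G` modulo `2` through the circulant matrix `(x, y)`. -/
def IsSwapEigen (t : CuspForm.heckeAlgebra N 2 ∅) (x y : ℤ) : Prop :=
  (∃ g ∈ CuspForm.intLattice N 2,
    (t : Module.End ℂ (CuspForm (Gamma0 N) 2)) F = x • F + y • G + (2 : ℤ) • g) ∧
  ∃ g ∈ CuspForm.intLattice N 2,
    (t : Module.End ℂ (CuspForm (Gamma0 N) 2)) G = y • F + x • G + (2 : ℤ) • g

variable {F G}

theorem IsSwapEigen.add {s t : CuspForm.heckeAlgebra N 2 ∅} {x y x' y' : ℤ}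
    (hs : IsSwapEigen F G s x y) (ht : IsSwapEigen F G t x' y') :
    IsSwapEigen F G (s + t) (x + x') (y + y') := by
  obtain ⟨⟨g, hg, hF⟩, g₁, hg₁, hG⟩ := hs
  obtain ⟨⟨g', hg', hF'⟩, g₁', hg₁', hG'⟩ := ht
  refine ⟨⟨g + g', add_mem hg hg', ?_⟩, g₁ + g₁', add_mem hg₁ hg₁', ?_⟩
  · change (s : Module.End ℂ (CuspForm (Gamma0 N) 2)) F +
      (t : Module.End ℂ (CuspForm (Gamma0 N) 2)) F = _
    rw [hF, hF']
    module
  · change (s : Module.End ℂ (CuspForm (Gamma0 N) 2)) G +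
      (t : Module.End ℂ (CuspForm (Gamma0 N) 2)) G = _
    rw [hG, hG']
    module

theorem IsSwapEigen.mul {s t : CuspForm.heckeAlgebra N 2 ∅} {x y x' y' : ℤ}
    (hs : IsSwapEigen F G s x y) (ht : IsSwapEigen F G t x' y') :
    IsSwapEigen F G (s * t) (x' * x + y' * y) (x' * y + y' * x) := by
  obtain ⟨⟨g, hg, hF⟩, g₁, hg₁, hG⟩ := hs
  obtain ⟨⟨g', hg', hF'⟩, g₁', hg₁', hG'⟩ := ht
  refine ⟨⟨x' • g + y' • g₁ + (s : Module.End ℂ (CuspForm (Gamma0 N) 2)) g',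
      add_mem (add_mem (Submodule.smul_mem _ _ hg) (Submodule.smul_mem _ _ hg₁))
        (CuspForm.mem_intLattice_of_mem_heckeAlgebra (by norm_num) s.2 hg'), ?_⟩,
    y' • g + x' • g₁ + (s : Module.End ℂ (CuspForm (Gamma0 N) 2)) g₁',
      add_mem (add_mem (Submodule.smul_mem _ _ hg) (Submodule.smul_mem _ _ hg₁))
        (CuspForm.mem_intLattice_of_mem_heckeAlgebra (by norm_num) s.2 hg₁'), ?_⟩
  · change (s : Module.End ℂ (CuspForm (Gamma0 N) 2))
      ((t : Module.End ℂ (CuspForm (Gamma0 N) 2)) F) = _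
    rw [hF', map_add, map_add, map_zsmul, map_zsmul, map_zsmul, hF, hG]
    module
  · change (s : Module.End ℂ (CuspForm (Gamma0 N) 2))
      ((t : Module.End ℂ (CuspForm (Gamma0 N) 2)) G) = _
    rw [hG', map_add, map_add, map_zsmul, map_zsmul, map_zsmul, hF, hG]
    module

theorem isSwapEigen_intCast (r : ℤ) :
    IsSwapEigen F G (algebraMap ℤ (CuspForm.heckeAlgebra N 2 ∅) r) r 0 := by
  constructor <;> exact ⟨0, zero_mem _, by simp⟩

theorem isSwapEigen_of_coeff {a a' : ℕ → ℤ}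
    (ha : ∀ n, ModularFormClass.qCoeff F n = (a n : ℂ))
    (ha' : ∀ n, ModularFormClass.qCoeff G n = (a' n : ℂ))
    (t : CuspForm.heckeAlgebra N 2 ∅) (x y : ℤ) (b b' : ℕ → ℤ)
    (hb : ∀ n, ModularFormClass.qCoeff ((t : Module.End ℂ (CuspForm (Gamma0 N) 2)) F) n = (b n : ℂ))
    (hb' : ∀ n,
      ModularFormClass.qCoeff ((t : Module.End ℂ (CuspForm (Gamma0 N) 2)) G) n = (b' n : ℂ))
    (h : ∀ n, (b n : ZMod 2) = x * a n + y * a' n ∧ (b' n : ZMod 2) = y * a n + x * a' n) :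
    IsSwapEigen F G t x y := by
  have key : ∀ (H : CuspForm (Gamma0 N) 2) (c : ℕ → ℤ) (u v : ℤ),
      (∀ n, ModularFormClass.qCoeff H n = (c n : ℂ)) →
      (∀ n, (c n : ZMod 2) = u * a n + v * a' n) →
      ∃ g ∈ CuspForm.intLattice N 2, H = u • F + v • G + (2 : ℤ) • g := by
    intro H c u v hc hcong
    refine ⟨(2 : ℂ)⁻¹ • (H - (u • F + v • G)), mem_intLattice_iff.mpr fun n => ?_, ?_⟩
    · have h2 : ((2 : ℕ) : ℤ) ∣ c n - (u * a n + v * a' n) := by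
        rw [← ZMod.intCast_zmod_eq_zero_iff_dvd]
        push_cast
        rw [hcong n, sub_self]
      obtain ⟨m, hm⟩ := h2
      refine ⟨m, ?_⟩
      rw [← qCoeffLin_apply, map_smul, map_sub, map_add, map_zsmul, map_zsmul, qCoeffLin_apply,
        qCoeffLin_apply, qCoeffLin_apply, hc, ha, ha', zsmul_eq_mul, zsmul_eq_mul, smul_eq_mul]
      have hm' := congrArg (fun z : ℤ => (z : ℂ)) hm
      push_cast at hm'
      rw [hm', ← mul_assoc, inv_mul_cancel₀ two_ne_zero, one_mul]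
    · rw [← Int.cast_smul_eq_zsmul ℂ (2 : ℤ), smul_smul, Int.cast_ofNat,
        mul_inv_cancel₀ two_ne_zero, one_smul, add_sub_cancel]
  exact ⟨key _ b x y hb fun n => (h n).1, key _ b' y x hb' fun n => (h n).2⟩

/-- The residues of the circulant entries are read off the first two coefficients. -/
theorem IsSwapEigen.unique {a a' : ℕ → ℤ}
    (ha : ∀ n, ModularFormClass.qCoeff F n = (a n : ℂ))
    (ha' : ∀ n, ModularFormClass.qCoeff G n = (a' n : ℂ))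
    (h₁ : (a 1 : ZMod 2) = 1) (h₂ : (a 2 : ZMod 2) = 0)
    (h₃ : (a' 1 : ZMod 2) = 0) (h₄ : (a' 2 : ZMod 2) = 1)
    {t : CuspForm.heckeAlgebra N 2 ∅} {x y x' y' : ℤ}
    (h : IsSwapEigen F G t x y) (h' : IsSwapEigen F G t x' y') :
    (x : ZMod 2) = x' ∧ (y : ZMod 2) = y' := by
  obtain ⟨⟨g, hg, hF⟩, -⟩ := h
  obtain ⟨⟨g', hg', hF'⟩, -⟩ := h'
  have key : ∀ n, (x : ZMod 2) * a n + y * a' n = x' * a n + y' * a' n := by
    intro n
    obtain ⟨b, hb⟩ := mem_intLattice_iff.mp hg n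
    obtain ⟨b', hb'⟩ := mem_intLattice_iff.mp hg' n
    have e := congrArg (qCoeffLin N 2 n) (hF.symm.trans hF')
    simp only [map_add, map_zsmul, qCoeffLin_apply, ha, ha', hb, hb', zsmul_eq_mul] at e
    have e' : x * a n + y * a' n + 2 * b = x' * a n + y' * a' n + 2 * b' := by
      exact_mod_cast e
    have e'' := congrArg (fun z : ℤ => (z : ZMod 2)) e'
    have h0 : (2 : ZMod 2) = 0 := rfl
    push_cast [h0] at e''
    simpa using e''
  refine ⟨?_, ?_⟩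
  · simpa [h₁, h₃] using key 1
  · simpa [h₂, h₄] using key 2

/-- The homomorphism to `𝔽₂[ε]` of a pair of forms exchanged modulo `2`. -/
theorem exists_dualHom {a a' : ℕ → ℤ}
    (ha : ∀ n, ModularFormClass.qCoeff F n = (a n : ℂ))
    (ha' : ∀ n, ModularFormClass.qCoeff G n = (a' n : ℂ))
    (h₁ : (a 1 : ZMod 2) = 1) (h₂ : (a 2 : ZMod 2) = 0)
    (h₃ : (a' 1 : ZMod 2) = 0) (h₄ : (a' 2 : ZMod 2) = 1)
    (hgen : ∀ t : Module.End ℂ (CuspForm (Gamma0 N) 2),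
      ∀ ht : t ∈ CuspForm.heckeGenerators N 2 ∅, ∃ x y,
        IsSwapEigen F G ⟨t, Algebra.subset_adjoin ht⟩ x y) :
    ∃ ψ : CuspForm.heckeAlgebra N 2 ∅ →+* DualNumber (ZMod 2), ∀ t x y,
      IsSwapEigen F G t x y →
        ψ t = TrivSqZeroExt.inl ((x : ZMod 2) + y) + TrivSqZeroExt.inr (y : ZMod 2) := by
  have hall : ∀ t : CuspForm.heckeAlgebra N 2 ∅, ∃ x y, IsSwapEigen F G t x y := by
    rintro ⟨t, ht⟩
    induction ht using Algebra.adjoin_induction with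
    | mem u hu => exact hgen u hu
    | algebraMap r => exact ⟨r, 0, isSwapEigen_intCast r⟩
    | add u v hu hv hxu hxv =>
      obtain ⟨x, y, h⟩ := hxu
      obtain ⟨x', y', h'⟩ := hxv
      exact ⟨_, _, h.add h'⟩
    | mul u v hu hv hxu hxv =>
      obtain ⟨x, y, h⟩ := hxu
      obtain ⟨x', y', h'⟩ := hxv
      exact ⟨_, _, h.mul h'⟩
  choose x y hxy using hall
  let val : ℤ → ℤ → DualNumber (ZMod 2) := fun u v =>
    TrivSqZeroExt.inl ((u : ZMod 2) + v) + TrivSqZeroExt.inr (v : ZMod 2)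
  have hval : ∀ t u v, IsSwapEigen F G t u v → val (x t) (y t) = val u v := by
    intro t u v h
    obtain ⟨e, e'⟩ := (hxy t).unique ha ha' h₁ h₂ h₃ h₄ h
    simp only [val, e, e']
  have hone : IsSwapEigen F G (1 : CuspForm.heckeAlgebra N 2 ∅) 1 0 := by
    simpa using isSwapEigen_intCast (F := F) (G := G) 1
  have hzero : IsSwapEigen F G (0 : CuspForm.heckeAlgebra N 2 ∅) 0 0 := by
    simpa using isSwapEigen_intCast (F := F) (G := G) 0
  refine ⟨{ toFun := fun t => val (x t) (y t), map_one' := ?_, map_mul' := ?_, map_zero' := ?_,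
            map_add' := ?_ }, hval⟩
  · rw [hval 1 1 0 hone]; simp [val]
  · intro s t
    rw [hval _ _ _ ((hxy s).mul (hxy t))]
    refine TrivSqZeroExt.ext ?_ ?_
    · simp [val]; ring
    · simp [val]
      have h0 : (2 : ZMod 2) = 0 := rfl
      linear_combination (-(y s : ZMod 2) * y t) * h0
  · rw [hval 0 0 0 hzero]; simp [val]
  · intro s t
    rw [hval _ _ _ ((hxy s).add (hxy t))]
    refine TrivSqZeroExt.ext ?_ ?_ <;> simp [val]; ring

variable {K : Type} [Field K] [NumberField K] [IsImagQuadratic K]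
variable (χ : ClassGroup (𝓞 K) →* Multiplicative (ZMod 3))

theorem isSwapEigen_T (hinert : (Ideal.span {(2 : 𝓞 K)}).IsPrime) (hχ : χ ≠ 1)
    [NeZero (discr K).natAbs] {ℓ : ℕ} (hℓ : ℓ.Prime) (hℓN : ¬ ℓ ∣ (discr K).natAbs) :
    IsSwapEigen (formF χ hχ) (formG χ hχ) (CuspForm.heckeAlgebra.T hℓ hℓN (Set.notMem_empty _))
      (if ℓ = 2 then 0 else traceTwo K χ ℓ) (if ℓ = 2 then 1 else 0) := by
  have hd : ¬ (ℓ : ℤ) ∣ discr K := fun h => hℓN ((natCast_dvd_discr_iff ℓ).2 h)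
  have hb : ∀ (f : CuspForm (Gamma0 (discr K).natAbs) 2) (c : ℕ → ℤ),
      (∀ n, ModularFormClass.qCoeff f n = (c n : ℂ)) → ∀ n,
      ModularFormClass.qCoeff (((CuspForm.heckeAlgebra.T hℓ hℓN (Set.notMem_empty _) :
        CuspForm.heckeAlgebra (discr K).natAbs 2 ∅) :
          Module.End ℂ (CuspForm (Gamma0 (discr K).natAbs) 2)) f) n =
        ((c (ℓ * n) + (ℓ : ℤ) * (if ℓ ∣ n then c (n / ℓ) else 0) : ℤ) : ℂ) := by
    intro f c hc n
    rw [CuspForm.heckeAlgebra.coe_T, qCoeff_heckeTLin, hc, hc, mul_comm n ℓ]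
    split_ifs <;> norm_num
  refine isSwapEigen_of_coeff (qCoeff_formF χ hχ) (qCoeff_formG χ hχ) _ _ _ _ _
    (hb _ _ (qCoeff_formF χ hχ)) (hb _ _ (qCoeff_formG χ hχ)) fun n => ?_
  rcases eq_or_ne ℓ 2 with rfl | h2
  · have h0 : (2 : ZMod 2) = 0 := rfl
    simp [coeffF_two_mul χ hinert, coeffG_two_mul, h0]
  · have h1 : ((ℓ : ℕ) : ZMod 2) = 1 := ZMod.natCast_eq_one_iff_odd.2 (hℓ.odd_of_ne_two h2)
    have hadd : ∀ u v : ZMod 2, u + v + v = u := by decide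
    simp only [if_neg h2, Int.cast_add, Int.cast_mul, Int.cast_natCast, h1, one_mul, Int.cast_zero,
      zero_mul, add_zero, zero_add, coeffF_mul χ hℓ h2, coeffG_mul χ hℓ h2, if_neg hd]
    constructor <;> split_ifs <;> simp [hadd]

theorem isSwapEigen_U (hinert : (Ideal.span {(2 : 𝓞 K)}).IsPrime) (hχ : χ ≠ 1)
    [NeZero (discr K).natAbs] {ℓ : ℕ} (hℓ : ℓ.Prime) (hℓN : ℓ ∣ (discr K).natAbs) :
    IsSwapEigen (formF χ hχ) (formG χ hχ)
      (CuspForm.heckeAlgebra.U hℓ hℓN (Set.notMem_empty _)) 1 0 := by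
  have hd : (ℓ : ℤ) ∣ discr K := (natCast_dvd_discr_iff ℓ).1 hℓN
  have h2 : ℓ ≠ 2 := fun h => (beta_two_mul χ hinert).1 (by subst h; exact_mod_cast hd)
  have hb : ∀ (f : CuspForm (Gamma0 (discr K).natAbs) 2) (c : ℕ → ℤ),
      (∀ n, ModularFormClass.qCoeff f n = (c n : ℂ)) → ∀ n,
      ModularFormClass.qCoeff (((CuspForm.heckeAlgebra.U hℓ hℓN (Set.notMem_empty _) :
        CuspForm.heckeAlgebra (discr K).natAbs 2 ∅) :
          Module.End ℂ (CuspForm (Gamma0 (discr K).natAbs) 2)) f) n = ((c (ℓ * n) : ℤ) : ℂ) := by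
    intro f c hc n
    rw [CuspForm.heckeAlgebra.coe_U, qCoeff_heckeULin hℓ.ne_zero, hc, mul_comm n ℓ]
  refine isSwapEigen_of_coeff (qCoeff_formF χ hχ) (qCoeff_formG χ hχ) _ _ _ _ _
    (hb _ _ (qCoeff_formF χ hχ)) (hb _ _ (qCoeff_formG χ hχ)) fun n => ?_
  simp [coeffF_mul χ hℓ h2, coeffG_mul χ hℓ h2, hd, traceTwo_of_dvd_discr K χ hd]

/-- Doubling: the full Hecke algebra of level `|d_K|` maps onto `𝔽₂[ε]`, by the dihedral
eigensystem away from `2` and `T₂ ↦ 1 + ε`. -/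
theorem exists_doublingHom (hinert : (Ideal.span {(2 : 𝓞 K)}).IsPrime) (hχ : χ ≠ 1)
    [NeZero (discr K).natAbs] :
    ∃ ψ : CuspForm.heckeAlgebra (discr K).natAbs 2 ∅ →+* DualNumber (ZMod 2),
      Function.Surjective ψ ∧
      (∀ (h : ¬ 2 ∣ (discr K).natAbs),
        ψ (CuspForm.heckeAlgebra.T Nat.prime_two h (Set.notMem_empty _)) = 1 + DualNumber.eps) ∧
      (∀ (ℓ : ℕ) (hℓ : ℓ.Prime) (hℓN : ¬ ℓ ∣ (discr K).natAbs), ℓ ≠ 2 →
        ψ (CuspForm.heckeAlgebra.T hℓ hℓN (Set.notMem_empty _)) =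
          TrivSqZeroExt.inl (traceTwo K χ ℓ : ZMod 2)) ∧
      ∀ (ℓ : ℕ) (hℓ : ℓ.Prime) (hℓN : ℓ ∣ (discr K).natAbs),
        ψ (CuspForm.heckeAlgebra.U hℓ hℓN (Set.notMem_empty _)) = 1 := by
  obtain ⟨ψ, hψ⟩ := exists_dualHom (qCoeff_formF χ hχ) (qCoeff_formG χ hχ) (coeffF_one χ)
    (coeffF_two χ hinert) (coeffG_one χ) (coeffG_two χ) (fun t ht => by
      rcases ht with ⟨ℓ, hℓ, hℓN, -, rfl⟩ | ⟨ℓ, hℓN, hℓ, -, rfl⟩
      · exact ⟨_, _, isSwapEigen_T χ hinert hχ hℓ hℓN⟩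
      · exact ⟨_, _, isSwapEigen_U χ hinert hχ hℓ hℓN⟩)
  have hT2 : ∀ h : ¬ 2 ∣ (discr K).natAbs,
      ψ (CuspForm.heckeAlgebra.T Nat.prime_two h (Set.notMem_empty _)) = 1 + DualNumber.eps := by
    intro h
    rw [hψ _ _ _ (isSwapEigen_T χ hinert hχ Nat.prime_two h)]
    refine TrivSqZeroExt.ext ?_ ?_ <;> simp
  refine ⟨ψ, fun z => ?_, hT2, fun ℓ hℓ hℓN h2 => ?_, fun ℓ hℓ hℓN => ?_⟩
  · have h2 : ¬ 2 ∣ (discr K).natAbs := fun h =>
      (beta_two_mul χ hinert).1 (by exact_mod_cast (natCast_dvd_discr_iff 2).1 h)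
    let u : CuspForm.heckeAlgebra (discr K).natAbs 2 ∅ :=
      CuspForm.heckeAlgebra.T Nat.prime_two h2 (Set.notMem_empty _) - 1
    obtain ⟨i, hi⟩ := ZMod.intCast_surjective (n := 2) z.fst
    obtain ⟨j, hj⟩ := ZMod.intCast_surjective (n := 2) z.snd
    refine ⟨(i : CuspForm.heckeAlgebra (discr K).natAbs 2 ∅) +
      (j : CuspForm.heckeAlgebra (discr K).natAbs 2 ∅) * u, ?_⟩
    rw [map_add, map_mul, map_intCast, map_intCast, map_sub, map_one, hT2 h2]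
    refine TrivSqZeroExt.ext ?_ ?_ <;> simp [hi, hj]
  · rw [hψ _ _ _ (isSwapEigen_T χ hinert hχ hℓ hℓN), if_neg h2, if_neg h2]
    simp
  · rw [hψ _ _ _ (isSwapEigen_U χ hinert hχ hℓ hℓN)]
    simp

end Fermat.Agent.TwoAdic.Doubling
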